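import Fermat.Agent.Lib.Mazur2.An.Tower
import Fermat.Agent.Lib.Mazur2.Pl.Chain

/-!
# ISOG (S12), package (P2): analytic input + place chain, glued

`W` an elliptic curve over `ℚ̄`, `Q` a point of order `p^(k+1)` (`p` odd).  With
`D_i := Δ_W^(p^i - 1) / (∏_{0<m<p^i} ψ₂(m p^(k+1-i) Q))⁴` (`i ≤ k+1`; `D_0 = 1`) there are
`J_0 = j(W), J_1, …, J_{k+1} ∈ ℚ̄` and places `x_0, …, x_k` of `X₀(p)` over `ℚ̄` with

`j(x_i) = J_i`,  `U_p(x_i) = D_{i+1}/D_i`,  `j_p(x_i) = J_{i+1}`.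

(`x_i` is the point `(E/N_i, N_{i+1}/N_i)`, `N_i = ⟨p^(k+1-i) Q⟩`.)  The statement is purely
algebraic; the proof is `mz2a_analytic` + `mz2p_chain`.
-/

set_option autoImplicit false
set_option linter.unusedSectionVars false
set_option linter.unusedVariables false

open UpperHalfPlane
open WeierstrassCurve WeierstrassCurve.Affine
open AlgebraicCurve Fermat.Agent.Curve Fermat.Agent.Curve.PlaceAux
open Fermat.Agent.Mazur Fermat.Agent.T1 Fermat.Agent.T2 ModularCurve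

namespace Fermat.Agent.Mazur2

local notation "Qb" => AlgebraicClosure ℚ
local notation "Δ" => ModularForm.discriminant

/-- `D_i = Δ_W^(p^i - 1) / (∏_{0<m<p^i} ψ₂(m · p^(k+1-i) Q))⁴`: the value of
`p^(12 i) Δ(p^i τ)/Δ(τ)` at the point of `(W, ⟨Q⟩)`. -/
noncomputable def mz2aD (p : ℕ) (W : WeierstrassCurve Qb) (Q : W.toAffine.Point) (k i : ℕ) : Qb :=
  W.Δ ^ (p ^ i - 1) / mzgaPi W ((p ^ (k + 1 - i)) • Q) (p ^ i) ^ 4

theorem mz2aD_zero (p : ℕ) (W : WeierstrassCurve Qb) (Q : W.toAffine.Point) (k : ℕ) :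
    mz2aD p W Q k 0 = 1 := by
  simp [mz2aD, mzgaPi]

open Fermat.Agent.S24Lib in
/-- **(P2-An)**, tower form: one `τ`, all levels `i ≤ k+1`. -/
theorem mz2a_tower {p : ℕ} (hp : p.Prime) (hp2 : p ≠ 2) (W : WeierstrassCurve Qb) [W.IsElliptic]
    (k : ℕ) (Q : W.toAffine.Point) (hQ : addOrderOf Q = p ^ (k + 1)) :
    ∃ τ : ℍ, jFun τ = algebraMap Qb ℂ W.j ∧
      (∀ i ≤ k + 1, ∀ τi : ℍ, (τi : ℂ) = (p : ℂ) ^ i * τ →
        ((p : ℂ) ^ i) ^ 12 * Δ τi = algebraMap Qb ℂ (mz2aD p W Q k i) * Δ τ) ∧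
      ∀ i ≤ k + 1, mz2aD p W Q k i ≠ 0 := by
  have hodd : Odd (p ^ (k + 1)) := (hp.odd_of_ne_two hp2).pow
  obtain ⟨τ, hj, hD⟩ := mz2a_analytic (algebraMap Qb ℂ) W hodd Q hQ
  have key : ∀ i ≤ k + 1, ∀ τi : ℍ, (τi : ℂ) = (p : ℂ) ^ i * τ →
      ((p : ℂ) ^ i) ^ 12 * Δ τi = algebraMap Qb ℂ (mz2aD p W Q k i) * Δ τ := by
    intro i hi τi hτi
    have hdvd : p ^ i ∣ p ^ (k + 1) := pow_dvd_pow p hi
    have hdiv : p ^ (k + 1) / p ^ i = p ^ (k + 1 - i) := Nat.pow_div hi hp.pos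
    have := hD (p ^ i) hdvd τi (by rw [hτi]; push_cast; ring)
    rw [hdiv] at this
    rw [mz2aD]
    push_cast at this ⊢
    exact this
  refine ⟨τ, hj, key, ?_⟩
  intro i hi h0
  have him : 0 < ((p : ℂ) ^ i * τ).im := by
    have : ((p : ℂ) ^ i * τ).im = ((p ^ i : ℕ) : ℝ) * τ.im := by
      rw [← Nat.cast_pow, Complex.mul_im, Complex.natCast_re, Complex.natCast_im, zero_mul,
        add_zero]
      rfl
    rw [this]
    exact mul_pos (by exact_mod_cast pow_pos hp.pos i) τ.im_pos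
  have h1 := key i hi ⟨(p : ℂ) ^ i * τ, him⟩ rfl
  rw [h0, map_zero, zero_mul] at h1
  have hpC : ((p : ℂ) ^ i) ^ 12 ≠ 0 :=
    pow_ne_zero _ (pow_ne_zero _ (by exact_mod_cast hp.ne_zero))
  exact (mul_ne_zero hpC (ModularForm.discriminant_ne_zero _)) h1

open Fermat.Agent.S24Lib in
/-- **(P2)**, algebraic form: the chain of points `x_i = (E/N_i, N_{i+1}/N_i)` of `X₀(p)`,
`i ≤ k`, attached to a point `Q` of order `p^(k+1)`. -/
theorem mz2a_tower_chain {p : ℕ} [NeZero p] (hp : p.Prime) (hp2 : p ≠ 2)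
    (W : WeierstrassCurve Qb) [W.IsElliptic]
    (k : ℕ) (Q : W.toAffine.Point) (hQ : addOrderOf Q = p ^ (k + 1)) :
    ∃ (J : ℕ → Qb) (x : ℕ → Place Qb ↥(modularFunctionFieldBar p)), J 0 = W.j ∧
      (∀ i ≤ k + 1, mz2aD p W Q k i ≠ 0) ∧
      ∀ i ≤ k,
        OrdGE (x i) (tbJ p - algebraMap Qb ↥(modularFunctionFieldBar p) (J i)) 1 ∧
        OrdGE (x i) (mzgU p p (dvd_refl p) - algebraMap Qb ↥(modularFunctionFieldBar p)
          (mz2aD p W Q k (i + 1) / mz2aD p W Q k i)) 1 ∧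
        OrdGE (x i) (t2cpYq p p (dvd_refl p) -
          algebraMap Qb ↥(modularFunctionFieldBar p) (J (i + 1))) 1 := by
  obtain ⟨τ, hj, hD, hD0⟩ := mz2a_tower hp hp2 W k Q hQ
  have hU : ∀ i < k + 1, ∀ τi τi' : ℍ, (τi : ℂ) = (p : ℂ) ^ i * τ →
      (τi' : ℂ) = (p : ℂ) ^ (i + 1) * τ →
      (p : ℂ) ^ 12 * Δ τi' =
        algebraMap Qb ℂ (mz2aD p W Q k (i + 1) / mz2aD p W Q k i) * Δ τi := by
    intro i hi τi τi' hτi hτi'
    have h1 := hD i hi.le τi hτi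
    have h2 := hD (i + 1) hi τi' hτi'
    have hDi : algebraMap Qb ℂ (mz2aD p W Q k i) ≠ 0 :=
      (map_ne_zero _).mpr (hD0 i hi.le)
    have hpi : ((p : ℂ) ^ i) ^ 12 ≠ 0 :=
      pow_ne_zero _ (pow_ne_zero _ (by exact_mod_cast hp.ne_zero))
    rw [map_div₀, div_mul_eq_mul_div, eq_div_iff hDi]
    -- multiply by `(p^i)^12` and compare
    apply mul_left_cancel₀ hpi
    have e1 : ((p : ℂ) ^ i) ^ 12 * ((p : ℂ) ^ 12 * Δ τi' * algebraMap Qb ℂ (mz2aD p W Q k i)) =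
        (((p : ℂ) ^ (i + 1)) ^ 12 * Δ τi') * algebraMap Qb ℂ (mz2aD p W Q k i) := by
      rw [pow_succ]; ring
    rw [e1, h2]
    have e2 : ((p : ℂ) ^ i) ^ 12 * (algebraMap Qb ℂ (mz2aD p W Q k (i + 1)) * Δ τi) =
        algebraMap Qb ℂ (mz2aD p W Q k (i + 1)) * (((p : ℂ) ^ i) ^ 12 * Δ τi) := by ring
    rw [e2, h1]
    ring
  obtain ⟨J, x, hJ0, -, hx⟩ := mz2p_chain hp τ (k + 1) W.j hj.symm
    (fun i => mz2aD p W Q k (i + 1) / mz2aD p W Q k i) hU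
  exact ⟨J, x, hJ0, hD0, fun i hi => hx i (Nat.lt_succ_of_le hi)⟩

end Fermat.Agent.Mazur2
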