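import Fermat.Agent.Lib.Mazur.G.An.Analytic

/-!
# ISOG (S12), package (P2-An): the analytic input of the tower dictionary

`K` a field with an embedding `ι : K →+* ℂ`, `W` an elliptic curve over `K`, `P` a point of `W(K)`
of odd order `n`.  Then there is ONE `τ ∈ ℍ` with `j(τ) = ι j(W)` such that for every divisor `d`
of `n` and `N_d := ⟨(n/d) P⟩` (cyclic of order `d`):

`d¹² Δ(dτ)/Δ(τ) = ι (Δ_W^(d-1) / (∏_{0<m<d} ψ₂(m (n/d) P))⁴)`.

This is `mzga_analytic` (MAZUR (G), AN7) for a point over an arbitrary subfield of `ℂ`, an arbitrary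
odd order, and all the intermediate cyclic subgroups at once: `E(ℂ) = ℂ/L`, `L = v₀ (ℤτ + ℤ)`,
`P ↔ g v₀ / n` with `g` prime to `n`, `L + ℤ (n/d) z₀ = (v₀/d)(ℤ dτ + ℤ)`, and the product
formula `Δ(L') Π⁴ = Δ(L)^d` of `An/Product.lean` (valid for every odd index).
-/

open Filter Topology Complex UpperHalfPlane
open scoped PeriodPair Real MatrixGroups
open WeierstrassCurve WeierstrassCurve.Affine
open Fermat.Agent.X015 Fermat.Agent.Mazur

namespace Fermat.Agent.Mazur2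

open Fermat.Agent.S24Lib

local notation "Δ" => ModularForm.discriminant

section Transport

set_option linter.unusedSectionVars false

variable {K : Type*} [Field K] [DecidableEq K] (ι : K →+* ℂ) (W : WeierstrassCurve K)

/-- The change of variables to the short model, over any subfield of `ℂ`. -/
noncomputable def mz2aVC : VariableChange ℂ where
  u := 1
  r := -(ι W.b₂) / 12
  s := -(ι W.a₁) / 2
  t := -(ι W.a₁ * (-(ι W.b₂) / 12) + ι W.a₃) / 2

theorem mz2aVC_smul_eq (L : PeriodPair) (h2 : L.g₂ = ι W.c₄ / 12) (h3 : L.g₃ = ι W.c₆ / 216) :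
    mz2aVC ι W • (W.map ι) = mzgaCurve L := by
  ext
  · simp [variableChange_a₁, mz2aVC]; ring
  · simp [variableChange_a₂, mz2aVC, WeierstrassCurve.b₂, map_ofNat]; ring
  · simp [variableChange_a₃, mz2aVC]; ring
  · simp [variableChange_a₄, mz2aVC, h2, WeierstrassCurve.c₄, WeierstrassCurve.b₂,
      WeierstrassCurve.b₄, map_ofNat]; ring
  · simp [variableChange_a₆, mz2aVC, h3, WeierstrassCurve.c₆, WeierstrassCurve.b₂,
      WeierstrassCurve.b₄, WeierstrassCurve.b₆, map_ofNat]; ring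

/-- The transport map `W(K) → (mzgaCurve L)(ℂ)`. -/
noncomputable def mz2aTransport (L : PeriodPair) (h2 : L.g₂ = ι W.c₄ / 12)
    (h3 : L.g₃ = ι W.c₆ / 216) :
    W.toAffine.Point →+ (mzgaCurve L).toAffine.Point :=
  ((pointCongr (mz2aVC_smul_eq ι W L h2 h3)).toAddMonoidHom.comp
    (vcPointEquiv (mz2aVC ι W) (W.map ι)).toAddMonoidHom).comp
    (mzgaMapPoint ι W)

theorem mz2aTransport_some (L : PeriodPair) (h2 : L.g₂ = ι W.c₄ / 12)
    (h3 : L.g₃ = ι W.c₆ / 216) {x y : K} (h : W.toAffine.Nonsingular x y) :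
    ∃ h', mz2aTransport ι W L h2 h3 (.some x y h) =
      .some (ι x + ι W.b₂ / 12) (ι y + (ι W.a₁ * ι x + ι W.a₃) / 2) h' := by
  have hns : (W.map ι).toAffine.Nonsingular (ι x) (ι y) :=
    (W.toAffine.map_nonsingular ι.injective x y).mpr h
  obtain ⟨h1, e1⟩ := vcPointEquiv_some (mz2aVC ι W) (W.map ι) hns
  have e2 := pointCongr_some (mz2aVC_smul_eq ι W L h2 h3) h1
  have hx : vcXinv (mz2aVC ι W) (ι x) = ι x + ι W.b₂ / 12 := by
    simp [vcXinv, mz2aVC]; ring
  have hy : vcYinv (mz2aVC ι W) (ι x) (ι y) = ι y + (ι W.a₁ * ι x + ι W.a₃) / 2 := by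
    simp [vcYinv, mz2aVC]; ring
  have key : mz2aTransport ι W L h2 h3 (.some x y h) =
      .some (vcXinv (mz2aVC ι W) (ι x)) (vcYinv (mz2aVC ι W) (ι x) (ι y))
        (mz2aVC_smul_eq ι W L h2 h3 ▸ h1) := by
    show (pointCongr (mz2aVC_smul_eq ι W L h2 h3)) ((vcPointEquiv (mz2aVC ι W)
      (W.map ι)) (mzgaMapPoint ι W (.some x y h))) = _
    rw [mzgaMapPoint_some, e1, e2]
  rw [key]
  refine ⟨hx ▸ hy ▸ (mz2aVC_smul_eq ι W L h2 h3 ▸ h1), ?_⟩
  exact mzga_some_congr _ _ _ hx hy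

theorem mz2aTransport_injective (L : PeriodPair) (h2 : L.g₂ = ι W.c₄ / 12)
    (h3 : L.g₃ = ι W.c₆ / 216) : Function.Injective (mz2aTransport ι W L h2 h3) := by
  have : ⇑(mz2aTransport ι W L h2 h3) = (pointCongr (mz2aVC_smul_eq ι W L h2 h3)) ∘
      (vcPointEquiv (mz2aVC ι W) (W.map ι)) ∘ (mzgaMapPoint ι W) := rfl
  rw [this]
  exact (pointCongr _).injective.comp ((vcPointEquiv _ _).injective.comp
    (mzgaMapPoint_injective _ _))

end Transport

/-! ### The analytic input for a cyclic subgroup chain -/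

/-- the `j`-invariant of a lattice with the invariants of `W` -/
theorem mz2a_jFun_of_lat {K : Type*} [Field K] (ι : K →+* ℂ) (W : WeierstrassCurve K)
    [W.IsElliptic] (τ : ℍ) {v : ℂ} (hv : v ≠ 0)
    (h2 : (mzgaLat τ v hv).g₂ = ι W.c₄ / 12) (h3 : (mzgaLat τ v hv).g₃ = ι W.c₆ / 216) :
    jFun τ = ι W.j := by
  have hΔW : ι W.Δ ≠ 0 := (map_ne_zero ι).mpr W.isUnit_Δ.ne_zero
  have hcrel : (ι W.c₄ / 12) ^ 3 - 27 * (ι W.c₆ / 216) ^ 2 = ι W.Δ := by
    have hC : (1728 : ℂ) * ι W.Δ = ι W.c₄ ^ 3 - ι W.c₆ ^ 2 := by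
      have := congrArg ι W.c_relation
      simpa only [map_mul, map_sub, map_pow, map_ofNat] using this
    linear_combination (-1 / 1728 : ℂ) * hC
  have hj := mzgaLat_jFun τ hv
  rw [h2, h3, hcrel] at hj
  have hjW : ι W.j * ι W.Δ = ι W.c₄ ^ 3 := by
    have : W.j * W.Δ = W.c₄ ^ 3 := by
      rw [WeierstrassCurve.j, ← W.coe_Δ', mul_comm, ← mul_assoc, Units.mul_inv, one_mul]
    have := congrArg ι this
    simpa only [map_mul, map_pow] using this
  apply mul_right_cancel₀ hΔW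
  rw [hjW, ← hj]; ring

/-- **(P2-An)**: one `τ` for a point of odd order `n` and all the subgroups `⟨(n/d) P⟩`, `d ∣ n`. -/
theorem mz2a_analytic {K : Type*} [Field K] [DecidableEq K] (ι : K →+* ℂ)
    (W : WeierstrassCurve K) [W.IsElliptic] {n : ℕ} (hn : Odd n)
    (P : W.toAffine.Point) (hP : addOrderOf P = n) :
    ∃ τ : ℍ, jFun τ = ι W.j ∧
      ∀ d : ℕ, d ∣ n → ∀ τd : ℍ, (τd : ℂ) = d * τ →
        (d : ℂ) ^ 12 * Δ τd = ι (W.Δ ^ (d - 1) / mzgaPi W ((n / d) • P) d ^ 4) * Δ τ := by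
  have hn0 : 0 < n := hn.pos
  have hnC : (n : ℂ) ≠ 0 := by exact_mod_cast hn0.ne'
  have hΔW : ι W.Δ ≠ 0 := by
    have : W.Δ ≠ 0 := W.isUnit_Δ.ne_zero
    exact (map_ne_zero ι).mpr this
  have hcrel : (ι W.c₄ / 12) ^ 3 - 27 * (ι W.c₆ / 216) ^ 2 = ι W.Δ := by
    have hC : (1728 : ℂ) * ι W.Δ = ι W.c₄ ^ 3 - ι W.c₆ ^ 2 := by
      have := congrArg ι W.c_relation
      simpa only [map_mul, map_sub, map_pow, map_ofNat] using this
    linear_combination (-1 / 1728 : ℂ) * hC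
  -- uniformise
  obtain ⟨τ₁, c, hc, h2, h3⟩ := mzga_uniformisation (A := ι W.c₄ / 12)
    (B := ι W.c₆ / 216) (by rw [hcrel]; exact hΔW)
  -- the trivial case `n = 1`
  rcases Nat.lt_or_ge 1 n with hn1 | hn1
  swap
  · have hn1' : n = 1 := le_antisymm hn1 hn0
    refine ⟨τ₁, mz2a_jFun_of_lat ι W τ₁ hc h2 h3, ?_⟩
    intro d hdn τd hτd
    rw [hn1', Nat.dvd_one] at hdn
    subst hdn
    have hττ : τd = τ₁ := by
      apply UpperHalfPlane.ext
      rw [hτd]; push_cast; ring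
    rw [hττ, mzgaPi]
    simp
  set L := mzgaLat τ₁ c hc with hL
  have hdiscL : L.g₂ ^ 3 - 27 * L.g₃ ^ 2 = ι W.Δ := by rw [h2, h3, hcrel]
  set φ := mz2aTransport ι W L h2 h3 with hφ
  have hφinj : Function.Injective φ := mz2aTransport_injective ι W L h2 h3
  obtain ⟨z₀, hz₀⟩ := mzgaPointHom_surjective L (φ P)
  have hmul : ∀ m : ℕ, mzgaPointHom L ((m : ℂ) * z₀) = φ (m • P) := by
    intro m
    rw [← nsmul_eq_mul, map_nsmul, hz₀, map_nsmul]
  have hnP : n • P = 0 := by rw [← hP]; exact addOrderOf_nsmul_eq_zero P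
  have hn_mem : (n : ℂ) * z₀ ∈ L.lattice := by
    rw [← mzgaPointHom_eq_zero_iff, hmul, hnP, map_zero]
  have hnot : ∀ m : ℕ, 0 < m → m < n → (m : ℂ) * z₀ ∉ L.lattice := by
    intro m hm0 hmn hmem
    rw [← mzgaPointHom_eq_zero_iff, hmul] at hmem
    have h0 : m • P = 0 := hφinj (by rw [hmem, map_zero])
    have := addOrderOf_dvd_of_nsmul_eq_zero h0
    rw [hP] at this
    exact absurd (Nat.le_of_dvd hm0 this) (not_le.mpr hmn)
  -- the values of `℘'`
  have hpsi : ∀ m : ℕ, 0 < m → m < n →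
      ℘'[L] ((m : ℂ) * z₀) = ι (mzgaPsi2 W (m • P)) := by
    intro m hm0 hmn
    have hnm := hnot m hm0 hmn
    have h1 := hmul m
    rw [mzgaPointHom_of_notMem L hnm] at h1
    rcases hmQ : m • P with _ | ⟨x, y, hxy⟩
    · exfalso
      rw [hmQ] at h1
      have : φ (WeierstrassCurve.Affine.Point.zero) = 0 := map_zero φ
      rw [this] at h1
      exact WeierstrassCurve.Affine.Point.some_ne_zero _ h1
    · rw [hmQ] at h1
      obtain ⟨h', e⟩ := mz2aTransport_some ι W L h2 h3 hxy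
      rw [hφ, e] at h1
      simp only [WeierstrassCurve.Affine.Point.some.injEq] at h1
      simp only [mzgaPsi2, map_add, map_mul, map_ofNat]
      linear_combination 2 * h1.2
  -- `n z₀ = c (a τ₁ + b)`
  obtain ⟨a, b, hab⟩ := (mzgaLat_mem_iff τ₁ hc).mp hn_mem
  have hgpos : 0 < Int.gcd a b := by
    rw [Nat.pos_iff_ne_zero, Ne, Int.gcd_eq_zero_iff]
    rintro ⟨rfl, rfl⟩
    have hz0 : z₀ = 0 := by
      have : (n : ℂ) * z₀ = 0 := by rw [hab]; simp
      exact (mul_eq_zero.mp this).resolve_left hnC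
    have hP0 : φ P = 0 := by rw [← hz₀, hz0, map_zero]
    have hP0' : P = 0 := hφinj (by rw [hP0, map_zero])
    rw [hP0', addOrderOf_zero] at hP
    omega
  obtain ⟨g, a', b', hg0, hgcd, ha, hb⟩ := Int.exists_gcd_one' hgpos
  have hco : IsCoprime a' b' := Int.isCoprime_iff_gcd_eq_one.mpr hgcd
  -- `g` is prime to `n`
  have hgn : Nat.Coprime g n := by
    by_contra hne
    set e := Nat.gcd g n with he
    have he1 : e ≠ 1 := hne
    have hen : e ∣ n := Nat.gcd_dvd_right g n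
    have heg : e ∣ g := Nat.gcd_dvd_left g n
    have he0 : 0 < e := Nat.gcd_pos_of_pos_right g hn0
    obtain ⟨n', hn'⟩ := hen
    obtain ⟨g', hg'⟩ := heg
    have hn'0 : 0 < n' := by
      rcases Nat.eq_zero_or_pos n' with h | h
      · rw [h, mul_zero] at hn'; omega
      · exact h
    have hn'n : n' < n := by
      rw [hn']
      have : 2 ≤ e := by omega
      nlinarith
    apply hnot n' hn'0 hn'n
    rw [mzgaLat_mem_iff]
    refine ⟨a' * g', b' * g', ?_⟩
    have heC : (e : ℂ) ≠ 0 := by exact_mod_cast he0.ne'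
    have h1 : (e : ℂ) * ((n' : ℂ) * z₀) =
        (e : ℂ) * (c * (((a' * g' : ℤ) : ℂ) * τ₁ + ((b' * g' : ℤ) : ℂ))) := by
      have hn'C : (n : ℂ) = (e : ℂ) * n' := by rw [hn']; push_cast; ring
      have hg'C : ((g : ℤ) : ℂ) = (e : ℂ) * g' := by
        have : (g : ℤ) = (e : ℤ) * g' := by exact_mod_cast hg'
        rw [this]; push_cast; ring
      have haC : (a : ℂ) = (a' : ℂ) * ((g : ℤ) : ℂ) := by rw [ha]; push_cast; ring
      have hbC : (b : ℂ) = (b' : ℂ) * ((g : ℤ) : ℂ) := by rw [hb]; push_cast; ring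
      rw [← mul_assoc, ← hn'C, hab, haC, hbC, hg'C]
      push_cast
      ring
    exact mul_left_cancel₀ heC h1
  obtain ⟨τ₂, v₀, hv, hv₀, hlat⟩ := mzga_lat_change τ₁ hc hco
  have hz₀eq : (n : ℂ) * z₀ = (g : ℤ) * v₀ := by
    rw [hab, hv₀, ha, hb]; push_cast; ring
  have hdL : ι W.Δ = (v₀ ^ 12)⁻¹ * (2 * (π : ℂ)) ^ 12 * Δ τ₂ := by
    rw [← hdiscL, ← mzga_g₂_congr hlat, ← mzga_g₃_congr hlat]
    exact mzgaLat_disc τ₂ hv
  have hπ : (π : ℂ) ≠ 0 := by exact_mod_cast Real.pi_ne_zero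
  refine ⟨τ₂, ?_, ?_⟩
  · -- the `j`-invariant
    exact mz2a_jFun_of_lat ι W τ₂ hv ((mzga_g₂_congr hlat).trans h2)
      ((mzga_g₃_congr hlat).trans h3)
  · -- the units
    intro d hdn τd hτd
    obtain ⟨d', hd'⟩ := hdn
    have hd0 : 0 < d := by
      rcases Nat.eq_zero_or_pos d with h | h
      · rw [h, zero_mul] at hd'; omega
      · exact h
    have hd'0 : 0 < d' := by
      rcases Nat.eq_zero_or_pos d' with h | h
      · rw [h, mul_zero] at hd'; omega
      · exact h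
    have hdC : (d : ℂ) ≠ 0 := by exact_mod_cast hd0.ne'
    have hndd : n / d = d' := by rw [hd']; exact Nat.mul_div_cancel_left d' hd0
    have hdodd : Odd d := by
      rcases Nat.even_or_odd d with he | ho
      · exfalso
        have : Even n := by rw [hd']; exact he.mul_right d'
        exact (Nat.not_even_iff_odd.mpr hn) this
      · exact ho
    have hgd : IsCoprime (g : ℤ) (d : ℤ) := by
      rw [Nat.isCoprime_iff_coprime]
      exact Nat.Coprime.coprime_dvd_right ⟨d', hd'⟩ hgn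
    set zd : ℂ := (d' : ℂ) * z₀ with hzd
    have hzdeq : zd = (g : ℤ) * v₀ / d := by
      rw [eq_div_iff hdC, hzd]
      have : (n : ℂ) = (d : ℂ) * d' := by rw [hd']; push_cast; ring
      rw [← hz₀eq, this]; ring
    have hvd : v₀ / d ≠ 0 := div_ne_zero hv hdC
    set L' := mzgaLat τd (v₀ / d) hvd with hL'
    have hmulzd : ∀ m : ℕ, (m : ℂ) * zd = ((m * d' : ℕ) : ℂ) * z₀ := by
      intro m; rw [hzd]; push_cast; ring
    have hsuper : MzgaSuper L L' d zd := by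
      refine ⟨hdodd, ?_, ?_, ?_⟩
      · intro x
        rw [mzga_super_mem_iff τ₂ τd hv hd0 hτd hgd hzdeq hvd x, hlat]
      · intro m hm0 hmd
        rw [hmulzd]
        apply hnot (m * d') (Nat.mul_pos hm0 hd'0)
        rw [hd']; exact Nat.mul_lt_mul_of_pos_right hmd hd'0
      · rw [hmulzd, ← hd']; exact hn_mem
    have hprod := hsuper.product_formula
    -- the product of the `℘'` values
    have hPi : ∏ m ∈ Finset.Ico 1 d, ℘'[L] ((m : ℂ) * zd) =
        ι (mzgaPi W ((n / d) • P) d) := by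
      rw [mzgaPi, map_prod]
      refine Finset.prod_congr rfl fun m hm => ?_
      have hm' := Finset.mem_Ico.mp hm
      rw [hmulzd, hpsi (m * d') (Nat.mul_pos hm'.1 hd'0)
        (by rw [hd']; exact Nat.mul_lt_mul_of_pos_right hm'.2 hd'0), hndd, mul_smul]
    rw [hPi, hdiscL] at hprod
    have hdL' : L'.g₂ ^ 3 - 27 * L'.g₃ ^ 2 = ((v₀ / d) ^ 12)⁻¹ * (2 * (π : ℂ)) ^ 12 * Δ τd :=
      mzgaLat_disc τd hvd
    rw [hdL'] at hprod
    have hPi_ne : ι (mzgaPi W ((n / d) • P) d) ≠ 0 := by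
      intro h0
      rw [h0] at hprod
      have : ι W.Δ ^ d = 0 := by rw [← hprod]; simp
      exact hΔW (pow_eq_zero_iff hd0.ne' |>.mp this)
    have hd1 : d = (d - 1) + 1 := (Nat.sub_add_cancel hd0).symm
    have hpow : ι W.Δ ^ d = ι W.Δ ^ (d - 1) * ι W.Δ := by
      conv_lhs => rw [hd1, pow_succ]
    rw [hpow] at hprod
    rw [map_div₀, map_pow, map_pow]
    generalize ι W.Δ ^ (d - 1) = D at hprod ⊢
    generalize ι (mzgaPi W ((n / d) • P) d) = Pi0 at hprod hPi_ne ⊢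
    rw [hdL] at hprod
    have hv12 : v₀ ^ 12 ≠ 0 := pow_ne_zero _ hv
    have hP4 : Pi0 ^ 4 ≠ 0 := pow_ne_zero _ hPi_ne
    have h2π : (2 * (π : ℂ)) ^ 12 ≠ 0 := pow_ne_zero _ (mul_ne_zero two_ne_zero hπ)
    rw [div_mul_eq_mul_div, eq_div_iff hP4]
    apply mul_left_cancel₀ (mul_ne_zero (inv_ne_zero hv12) h2π)
    have e1 : ((v₀ / d) ^ 12)⁻¹ = (v₀ ^ 12)⁻¹ * (d : ℂ) ^ 12 := by
      rw [div_pow, inv_div, div_eq_mul_inv, mul_comm]
    rw [e1] at hprod
    linear_combination hprod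

end Fermat.Agent.Mazur2
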